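/-
S58 [FIX-MULT] (helper19), (M2) [E1-DIV]: THE KERNEL OF REDUCTION IS DIVISIBLE BY UNITS.

`F` an algebraically closed field, `A : ValuationSubring F`, `W : Affine F` with `b`-invariants in
`A` and `Δ ≠ 0`, `n` a natural number which is a unit of `A`.  Every point `R` of the kernel of
reduction `E₁ = {0} ∪ {x ∉ A}` (`S05.InKerRed A R`) is `n • R'` with `R'` in `E₁`.

Proof: for `R = (x₀, y₀)`, `x₀ ∉ A`, the polynomial `Aₙ - x₀ Bₙ` of the S13 ladder is monic of
degree `n²` with next coefficient `a - n² x₀ ∉ A` (`a ∈ A`), so (Vieta: minus the sum of the roots)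
it has a root `∉ A`; `ld_exists_preimage` (S13/Ladder/Count.lean) turns that root into `R'`.
Prefix `s58m_`.
-/
import Mathlib
import Fermat.Agent.S05.NoTorsion
import Fermat.Agent.S13.Ladder.Count
import Fermat.Agent.S13.Ladder.Integral

set_option autoImplicit false

namespace Fermat.Agent.S58

open Polynomial WeierstrassCurve WeierstrassCurve.Affine Fermat.Agent.S13 Fermat.Agent.S05

variable {F : Type*} [Field F]

/-- a monic polynomial over an algebraically closed field whose next coefficient is not in the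
valuation ring `A` has a root outside `A` -/
theorem s58m_exists_root_not_mem [IsAlgClosed F] (A : ValuationSubring F) {p : F[X]}
    (hp : p.Monic) (hnc : p.nextCoeff ∉ A) : ∃ a, p.eval a = 0 ∧ a ∉ A := by
  by_contra hcon
  push Not at hcon
  apply hnc
  rw [(IsAlgClosed.splits p).nextCoeff_eq_neg_sum_roots_of_monic hp]
  refine neg_mem ?_
  refine multiset_sum_mem _ ?_
  intro a ha
  exact hcon a ((mem_roots hp.ne_zero).mp ha)

/-- the polynomial `Aₙ - x₀ Bₙ` is monic (`n ≥ 1`) -/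
theorem s58m_div_poly_monic (W : Affine F) (x₀ : F) {n : ℕ} (hn : 1 ≤ n) :
    (ldA (ldPoly W) n - C x₀ * ldB (ldPoly W) n).Monic ∧
      (ldA (ldPoly W) n - C x₀ * ldB (ldPoly W) n).natDegree = n ^ 2 := by
  have hN : 1 ≤ n ^ 2 := Nat.one_le_pow _ _ hn
  have hA := ldA_top W n
  have hB := ldB_top W n
  have hBdeg : (C x₀ * ldB (ldPoly W) n).natDegree ≤ n ^ 2 - 1 :=
    (natDegree_C_mul_le _ _).trans hB.deg
  have hdeg : (ldA (ldPoly W) n - C x₀ * ldB (ldPoly W) n).natDegree ≤ n ^ 2 :=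
    (natDegree_sub_le_of_le hA.deg (hBdeg.trans (Nat.sub_le _ _))).trans (by simp)
  have hc : (ldA (ldPoly W) n - C x₀ * ldB (ldPoly W) n).coeff (n ^ 2) = 1 := by
    rw [coeff_sub, hA.top, coeff_eq_zero_of_natDegree_lt (lt_of_le_of_lt hBdeg (by omega)),
      sub_zero]
  refine ⟨monic_of_natDegree_le_of_coeff_eq_one _ hdeg hc, ?_⟩
  refine le_antisymm hdeg (le_natDegree_of_ne_zero ?_)
  rw [hc]
  exact one_ne_zero

/-- the next coefficient of `Aₙ - x₀ Bₙ` -/
theorem s58m_div_poly_nextCoeff (W : Affine F) (x₀ : F) {n : ℕ} (hn : 1 ≤ n) :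
    (ldA (ldPoly W) n - C x₀ * ldB (ldPoly W) n).nextCoeff =
      (ldA (ldPoly W) n).coeff (n ^ 2 - 1) - x₀ * ((n ^ 2 : ℕ) : F) := by
  have hN : 1 ≤ n ^ 2 := Nat.one_le_pow _ _ hn
  obtain ⟨-, hd⟩ := s58m_div_poly_monic W x₀ hn
  rw [nextCoeff_of_natDegree_pos (by omega), hd, coeff_sub, coeff_C_mul, (ldB_top W n).top]

/-- **(M2) [E1-DIV]**: the kernel of reduction is divisible by every `n` which is a unit of `A`. -/
theorem s58m_E1_div [DecidableEq F] [IsAlgClosed F] {A : ValuationSubring F} {W : Affine F}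
    (h₂ : W.b₂ ∈ A) (h₄ : W.b₄ ∈ A) (h₆ : W.b₆ ∈ A) (h₈ : W.b₈ ∈ A) (hΔ : W.Δ ≠ 0)
    {n : ℕ} (hn : A.valuation (n : F) = 1) {R : W.Point} (hR : InKerRed A R) :
    ∃ R' : W.Point, InKerRed A R' ∧ n • R' = R := by
  rcases R with _ | ⟨x₀, y₀, h₀⟩
  · exact ⟨0, inKerRed_zero, smul_zero n⟩
  · have hx₀ : x₀ ∉ A := (inKerRed_some h₀).mp hR
    have hn1 : 1 ≤ n := by
      rcases Nat.eq_zero_or_pos n with h | h
      · subst h
        simp at hn
      · exact h
    obtain ⟨hmon, -⟩ := s58m_div_poly_monic W x₀ hn1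
    have hnc : (ldA (ldPoly W) n - C x₀ * ldB (ldPoly W) n).nextCoeff ∉ A := by
      rw [s58m_div_poly_nextCoeff W x₀ hn1]
      intro hmem
      have hA : (ldA (ldPoly W) n).coeff (n ^ 2 - 1) ∈ A :=
        ldA_coeff_mem A.toSubring W h₂ h₄ h₆ h₈ n _
      have h1 : x₀ * ((n ^ 2 : ℕ) : F) ∈ A := by
        have := sub_mem hA hmem
        rwa [sub_sub_cancel] at this
      have h2 : A.valuation (x₀ * ((n ^ 2 : ℕ) : F)) = A.valuation x₀ := by
        rw [map_mul, Nat.cast_pow, map_pow, hn, one_pow, mul_one]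
      have h3 := (A.valuation_le_one_iff _).mpr h1
      rw [h2] at h3
      exact hx₀ ((A.valuation_le_one_iff _).mp h3)
    obtain ⟨a, ha, haA⟩ := s58m_exists_root_not_mem A hmon hnc
    obtain ⟨R', hR', hx⟩ := ld_exists_preimage hΔ n h₀ ha
    refine ⟨R', Or.inr ?_, hR'⟩
    rw [hx]
    exact haA

end Fermat.Agent.S58
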