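/-
S58 [FIX-MULT] (helper19): LIFTING POINTS AND TORSION POINTS ALONG THE REDUCTION MAP.

Context of [RED-HOM] (helper21, S58/Red/Hom.lean) with `F` algebraically closed and `W.Δ ≠ 0`:
* `s58m_mem_E0_of_inKerRed`, `s58m_red_of_inKerRed`: the kernel of reduction lies in `E0` and
  reduces to `0`;
* `s58m_exists_lift`: `s58r_red hM : E0 → Wk.Point` is SURJECTIVE;
* `s58m_exists_torsion_lift`: for `n` a unit of `A`, every `Q ∈ Wk.Point` with `n • Q = 0` is the
  reduction of some `P ∈ E0` with `n • P = 0` (lift, then correct by [E1-DIV]).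
Prefix `s58m_`.
-/
import Mathlib
import Fermat.Agent.S58.Red.Hom
import Fermat.Agent.S58.Mult.E1Div

set_option autoImplicit false

namespace Fermat.Agent.S58

open WeierstrassCurve WeierstrassCurve.Affine IsLocalRing Fermat.Agent.S13 Fermat.Agent.S05

variable {F : Type*} [Field F] [DecidableEq F] {A : ValuationSubring F}
  [DecidableEq (ResidueField A)] {W : Affine F} {Wk : Affine (ResidueField A)}

/-- the kernel of reduction lies in `E0` -/
theorem s58m_mem_E0_of_inKerRed (hM : s58r_Model A W Wk) {P : W.Point} (hP : InKerRed A P) :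
    P ∈ s58r_E0 hM := by
  rcases P with _ | ⟨x, y, h⟩
  · exact (s58r_E0 hM).zero_mem
  · exact ⟨0, s58r_RedTo.inf h ((inKerRed_some h).mp hP)⟩

/-- the kernel of reduction reduces to `0` -/
theorem s58m_red_of_inKerRed (hM : s58r_Model A W Wk) {P : W.Point} (hP : InKerRed A P) :
    s58r_red hM ⟨P, s58m_mem_E0_of_inKerRed hM hP⟩ = 0 :=
  (s58r_red_eq_zero_iff hM _).mpr hP

/-- an integral point with nonsingular reduction, as an element of `E0` with its reduction -/
theorem s58m_red_aff (hM : s58r_Model A W Wk) (a b : A) (h : W.Nonsingular (a : F) (b : F))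
    (h' : Wk.Nonsingular (residue A a) (residue A b)) :
    ∃ P : s58r_E0 hM, (P : W.Point) = Point.some _ _ h ∧ s58r_red hM P = Point.some _ _ h' :=
  ⟨⟨_, _, s58r_RedTo.aff a b h h'⟩, rfl, s58r_red_eq hM _ (s58r_RedTo.aff a b h h')⟩

/-- **the reduction map is surjective** (`F` algebraically closed) -/
theorem s58m_exists_lift [IsAlgClosed F] (hM : s58r_Model A W Wk) (hΔ : W.Δ ≠ 0)
    (Q : Wk.Point) : ∃ P : s58r_E0 hM, s58r_red hM P = Q := by
  rcases Q with _ | ⟨xb, yb, hb⟩
  · exact ⟨0, map_zero _⟩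
  · obtain ⟨WA, rfl, rfl⟩ := id hM
    obtain ⟨a, rfl⟩ := residue_surjective (R := A) xb
    obtain ⟨y, hy⟩ := ld_exists_point hΔ (a : F)
    have hyA : y ∈ A := s58r_y_mem A WA a.2 hy.1
    set b : A := ⟨y, hyA⟩ with hbdef
    have he := s58r_equation_residue A WA (a := a) (b := b) hy.1
    rcases Y_eq_of_X_eq hb.1 he rfl with hyb | hyb
    · subst hyb
      obtain ⟨P, -, hP⟩ := s58m_red_aff hM a b hy hb
      exact ⟨P, hP⟩
    · -- the other root
      set c : A := WA.toAffine.negY a b with hc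
      have hcF : (WA.map A.subtype).toAffine.negY (a : F) (b : F) = (c : F) :=
        map_negY (W' := WA.toAffine) A.subtype a b
      have hck : (WA.map (residue A)).toAffine.negY (residue A a) (residue A b) = residue A c :=
        map_negY (W' := WA.toAffine) (residue A) a b
      have hn : (WA.map A.subtype).toAffine.Nonsingular (a : F) (c : F) := by
        rw [← hcF]; exact (nonsingular_neg ..).mpr hy
      have hyc : yb = residue A c := by rw [hyb, hck]
      subst hyc
      obtain ⟨P, -, hP⟩ := s58m_red_aff hM a c hn hb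
      exact ⟨P, hP⟩

/-- **torsion lifting**: for `n` a unit of `A`, every `n`-torsion point of `Wk` is the reduction
of an `n`-torsion point of `E0`. -/
theorem s58m_exists_torsion_lift [IsAlgClosed F] (hM : s58r_Model A W Wk) (hΔ : W.Δ ≠ 0)
    {n : ℕ} (hn : A.valuation (n : F) = 1) {Q : Wk.Point} (hQ : n • Q = 0) :
    ∃ P : s58r_E0 hM, n • (P : W.Point) = 0 ∧ s58r_red hM P = Q := by
  obtain ⟨P₀, hP₀⟩ := s58m_exists_lift hM hΔ Q
  obtain ⟨h₂, h₄, h₆, h₈⟩ := s58r_b_mem hM
  have hker : InKerRed A ((n • P₀ : s58r_E0 hM) : W.Point) := by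
    rw [← s58r_red_eq_zero_iff hM, map_nsmul, hP₀, hQ]
  obtain ⟨R', hR', hnR'⟩ := s58m_E1_div h₂ h₄ h₆ h₈ hΔ hn hker
  refine ⟨P₀ - ⟨R', s58m_mem_E0_of_inKerRed hM hR'⟩, ?_, ?_⟩
  · rw [AddSubgroup.coe_sub, nsmul_sub, hnR', AddSubgroup.coe_nsmul, sub_self]
  · rw [map_sub, s58m_red_of_inKerRed hM hR', sub_zero, hP₀]

end Fermat.Agent.S58
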