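/-
Project S58, cell **[FIX-MULT]** (M1) [NODAL], part 1 (helper19).  Prefix `s58m_`.  Mathlib only.

A Weierstrass cubic in NODAL FORM `(Y - αX)(Y - βX) = X³`, `X = x - x0`, `Y = y - y0`, `α ≠ β`
(`s58m_Nodal W x0 y0 α β`): the explicit injective homomorphism `kˣ → W.Point`,
`t ↦ (x0 + u² t/(1-t)², y0 + (α - tβ) t u²/(1-t)³)`, `u = α - β`, `1 ↦ 0`.

* `s58m_phi`         : the map `kˣ → W.Point`;
* `s58m_phi_mul`     : `φ (t s) = φ t + φ s`;
* `s58m_phi_eq_zero` : `φ t = 0 ↔ t = 1`;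
* `s58m_phi_pow`     : `φ (t ^ n) = n • φ t`.
-/
import Mathlib

set_option autoImplicit false
set_option linter.unusedSectionVars false
set_option linter.unusedVariables false

namespace Fermat.Agent.S58

open WeierstrassCurve WeierstrassCurve.Affine

variable {k : Type*} [Field k]

/-- `W` is the nodal cubic `(Y - αX)(Y - βX) = X³` with `X = x - x0`, `Y = y - y0`, `α ≠ β`. -/
structure s58m_Nodal (W : Affine k) (x0 y0 α β : k) : Prop where
  ha1 : W.a₁ = -(α + β)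
  ha2 : W.a₂ = -(α * β) - 3 * x0
  ha3 : W.a₃ = -2 * y0 + (α + β) * x0
  ha4 : W.a₄ = -(α + β) * y0 + 2 * α * β * x0 + 3 * x0 ^ 2
  ha6 : W.a₆ = -(y0 ^ 2 - (α + β) * x0 * y0 + α * β * x0 ^ 2 + x0 ^ 3)
  hne : α ≠ β

/-- the `x`-coordinate of the point with parameter `t`. -/
noncomputable def s58m_px (x0 α β t : k) : k := x0 + (α - β) ^ 2 * t / (1 - t) ^ 2

/-- the `y`-coordinate of the point with parameter `t`. -/
noncomputable def s58m_py (y0 α β t : k) : k := y0 + (α - t * β) * t * (α - β) ^ 2 / (1 - t) ^ 3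

section Nodal

variable {W : Affine k} {x0 y0 α β : k} (H : s58m_Nodal W x0 y0 α β)

include H in
theorem s58m_equation {t : k} (ht1 : t ≠ 1) :
    W.Equation (s58m_px x0 α β t) (s58m_py y0 α β t) := by
  have h1 : (1 - t) ≠ 0 := sub_ne_zero.2 (Ne.symm ht1)
  rw [equation_iff, H.ha1, H.ha2, H.ha3, H.ha4, H.ha6, s58m_px, s58m_py]
  field_simp
  ring

include H in
/-- a point of the curve with `x ≠ x0` is nonsingular. -/
theorem s58m_nonsingular_of_ne {x y : k} (h : W.Equation x y) (hx : x ≠ x0) :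
    W.Nonsingular x y := by
  rw [nonsingular_iff]
  refine ⟨h, ?_⟩
  by_contra hcon
  push Not at hcon
  obtain ⟨h1, h2⟩ := hcon
  rw [equation_iff, H.ha1, H.ha2, H.ha3, H.ha4, H.ha6] at h
  rw [H.ha1, H.ha2, H.ha4] at h1
  rw [H.ha1, H.ha3] at h2
  have h3 : (x - x0) ^ 3 = 0 := by
    linear_combination (2 : k) * h - (x - x0) * h1 - (y - y0) * h2
  exact hx (sub_eq_zero.1 (pow_eq_zero_iff (by norm_num) |>.1 h3))

include H in
theorem s58m_px_ne {t : k} (ht0 : t ≠ 0) (ht1 : t ≠ 1) : s58m_px x0 α β t ≠ x0 := by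
  have h1 : (1 - t) ≠ 0 := sub_ne_zero.2 (Ne.symm ht1)
  have hu : α - β ≠ 0 := sub_ne_zero.2 H.hne
  rw [s58m_px]
  intro h
  have h2 : (α - β) ^ 2 * t / (1 - t) ^ 2 = 0 := by linear_combination h
  rw [div_eq_zero_iff] at h2
  rcases h2 with h2 | h2
  · exact mul_ne_zero (pow_ne_zero 2 hu) ht0 h2
  · exact pow_ne_zero 2 h1 h2

include H in
theorem s58m_nonsingular {t : k} (ht0 : t ≠ 0) (ht1 : t ≠ 1) :
    W.Nonsingular (s58m_px x0 α β t) (s58m_py y0 α β t) :=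
  s58m_nonsingular_of_ne H (s58m_equation H ht1) (s58m_px_ne H ht0 ht1)

end Nodal

end Fermat.Agent.S58
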