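/-
Project S58, cell **[FIX-MULT]** (M1) [NODAL], part 2 (helper19).  Prefix `s58m_`.  Mathlib only.

The group law on a nodal cubic in the parameter `t`: `φ (t s) = φ t + φ s`.
-/
import Mathlib
import Fermat.Agent.S58.Mult.NodalForm

set_option autoImplicit false
set_option linter.unusedSectionVars false
set_option linter.unusedVariables false

namespace Fermat.Agent.S58

open WeierstrassCurve WeierstrassCurve.Affine

variable {k : Type*} [Field k]

section Formulas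

variable {W : Affine k} {x0 y0 α β : k} (H : s58m_Nodal W x0 y0 α β)

theorem s58m_px_inv {t : k} (ht0 : t ≠ 0) (ht1 : t ≠ 1) :
    s58m_px x0 α β t⁻¹ = s58m_px x0 α β t := by
  have h1 : (1 - t) ≠ 0 := sub_ne_zero.2 (Ne.symm ht1)
  have h3 : t - 1 ≠ 0 := sub_ne_zero.2 ht1
  rw [s58m_px, s58m_px]
  field_simp
  ring

include H in
theorem s58m_py_inv {t : k} (ht0 : t ≠ 0) (ht1 : t ≠ 1) :
    s58m_py y0 α β t⁻¹ = W.negY (s58m_px x0 α β t) (s58m_py y0 α β t) := by
  have h1 : (1 - t) ≠ 0 := sub_ne_zero.2 (Ne.symm ht1)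
  have h3 : t - 1 ≠ 0 := sub_ne_zero.2 ht1
  rw [negY, H.ha1, H.ha3, s58m_px, s58m_py, s58m_py]
  field_simp
  ring

theorem s58m_px_sub {t s : k} (ht1 : t ≠ 1) (hs1 : s ≠ 1) :
    s58m_px x0 α β t - s58m_px x0 α β s =
      (α - β) ^ 2 * (t - s) * (1 - t * s) / ((1 - t) ^ 2 * (1 - s) ^ 2) := by
  have h1 : (1 - t) ≠ 0 := sub_ne_zero.2 (Ne.symm ht1)
  have h2 : (1 - s) ≠ 0 := sub_ne_zero.2 (Ne.symm hs1)
  rw [s58m_px, s58m_px]
  field_simp
  ring

include H in
theorem s58m_px_ne_of {t s : k} (ht1 : t ≠ 1) (hs1 : s ≠ 1) (hne : t ≠ s) (hts : t * s ≠ 1) :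
    s58m_px x0 α β t ≠ s58m_px x0 α β s := by
  have h1 : (1 - t) ≠ 0 := sub_ne_zero.2 (Ne.symm ht1)
  have h2 : (1 - s) ≠ 0 := sub_ne_zero.2 (Ne.symm hs1)
  have h3 : (1 - t * s) ≠ 0 := sub_ne_zero.2 (Ne.symm hts)
  have h4 : t - s ≠ 0 := sub_ne_zero.2 hne
  have hu : α - β ≠ 0 := sub_ne_zero.2 H.hne
  intro h
  have h5 := s58m_px_sub (x0 := x0) (α := α) (β := β) ht1 hs1
  rw [h, sub_self] at h5
  have h6 := h5.symm
  rw [div_eq_zero_iff] at h6
  rcases h6 with h6 | h6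
  · exact mul_ne_zero (mul_ne_zero (pow_ne_zero 2 hu) h4) h3 h6
  · exact mul_ne_zero (pow_ne_zero 2 h1) (pow_ne_zero 2 h2) h6

theorem s58m_py_sub {t s : k} (ht1 : t ≠ 1) (hs1 : s ≠ 1) :
    s58m_py y0 α β t - s58m_py y0 α β s =
      (α - β) ^ 2 * ((α - t * β) * t * (1 - s) ^ 3 - (α - s * β) * s * (1 - t) ^ 3) /
        ((1 - t) ^ 3 * (1 - s) ^ 3) := by
  have h1 : (1 - t) ≠ 0 := sub_ne_zero.2 (Ne.symm ht1)
  have h2 : (1 - s) ≠ 0 := sub_ne_zero.2 (Ne.symm hs1)
  rw [s58m_py, s58m_py]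
  field_simp
  ring

include H in
/-- the chord: `x`-coordinate. -/
theorem s58m_chord_x {t s : k} (ht1 : t ≠ 1) (hs1 : s ≠ 1) (hts : t * s ≠ 1) (hne : t ≠ s) :
    W.addX (s58m_px x0 α β t) (s58m_px x0 α β s)
      ((s58m_py y0 α β t - s58m_py y0 α β s) / (s58m_px x0 α β t - s58m_px x0 α β s)) =
      s58m_px x0 α β (t * s) := by
  have h1 : (1 - t) ≠ 0 := sub_ne_zero.2 (Ne.symm ht1)
  have h2 : (1 - s) ≠ 0 := sub_ne_zero.2 (Ne.symm hs1)
  have h3 : (1 - t * s) ≠ 0 := sub_ne_zero.2 (Ne.symm hts)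
  have h4 : t - s ≠ 0 := sub_ne_zero.2 hne
  have hu : α - β ≠ 0 := sub_ne_zero.2 H.hne
  rw [addX, H.ha1, H.ha2, s58m_px_sub ht1 hs1, s58m_py_sub ht1 hs1]
  rw [s58m_px, s58m_px, s58m_px]
  field_simp
  ring

include H in
/-- the chord: `y`-coordinate. -/
theorem s58m_chord_y {t s : k} (ht1 : t ≠ 1) (hs1 : s ≠ 1) (hts : t * s ≠ 1) (hne : t ≠ s) :
    W.addY (s58m_px x0 α β t) (s58m_px x0 α β s) (s58m_py y0 α β t)
      ((s58m_py y0 α β t - s58m_py y0 α β s) / (s58m_px x0 α β t - s58m_px x0 α β s)) =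
      s58m_py y0 α β (t * s) := by
  have h1 : (1 - t) ≠ 0 := sub_ne_zero.2 (Ne.symm ht1)
  have h2 : (1 - s) ≠ 0 := sub_ne_zero.2 (Ne.symm hs1)
  have h3 : (1 - t * s) ≠ 0 := sub_ne_zero.2 (Ne.symm hts)
  have h4 : t - s ≠ 0 := sub_ne_zero.2 hne
  have hu : α - β ≠ 0 := sub_ne_zero.2 H.hne
  rw [addY, negAddY, s58m_chord_x H ht1 hs1 hts hne, negY, H.ha1, H.ha3,
    s58m_px_sub ht1 hs1, s58m_py_sub ht1 hs1]
  rw [s58m_px, s58m_px, s58m_py, s58m_py]
  field_simp
  ring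

include H in
/-- `y - negY` at the point with parameter `t`. -/
theorem s58m_py_sub_negY {t : k} (ht1 : t ≠ 1) :
    s58m_py y0 α β t - W.negY (s58m_px x0 α β t) (s58m_py y0 α β t) =
      (α - β) ^ 3 * t * (1 + t) / (1 - t) ^ 3 := by
  have h1 : (1 - t) ≠ 0 := sub_ne_zero.2 (Ne.symm ht1)
  rw [negY, H.ha1, H.ha3, s58m_px, s58m_py]
  field_simp
  ring

include H in
theorem s58m_py_ne_negY {t : k} (ht0 : t ≠ 0) (ht1 : t ≠ 1) (htt : t * t ≠ 1) :
    s58m_py y0 α β t ≠ W.negY (s58m_px x0 α β t) (s58m_py y0 α β t) := by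
  have h1 : (1 - t) ≠ 0 := sub_ne_zero.2 (Ne.symm ht1)
  have hu : α - β ≠ 0 := sub_ne_zero.2 H.hne
  have h2 : 1 + t ≠ 0 := by
    intro h
    apply htt
    have : t = -1 := by linear_combination h
    rw [this]
    ring
  intro h
  have h3 := s58m_py_sub_negY H (x0 := x0) (y0 := y0) ht1
  rw [← h, sub_self] at h3
  have h4 := h3.symm
  rw [div_eq_zero_iff] at h4
  rcases h4 with h4 | h4
  · exact mul_ne_zero (mul_ne_zero (pow_ne_zero 3 hu) ht0) h2 h4
  · exact pow_ne_zero 3 h1 h4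

include H in
/-- the numerator of the tangent slope. -/
theorem s58m_tangent_num {t : k} (ht1 : t ≠ 1) :
    3 * s58m_px x0 α β t ^ 2 + 2 * W.a₂ * s58m_px x0 α β t + W.a₄ - W.a₁ * s58m_py y0 α β t =
      (α - β) ^ 3 * t * (α + 2 * α * t - 2 * β * t - β * t ^ 2) / (1 - t) ^ 4 := by
  have h1 : (1 - t) ≠ 0 := sub_ne_zero.2 (Ne.symm ht1)
  rw [H.ha1, H.ha2, H.ha4, s58m_px, s58m_py]
  field_simp
  ring

include H in
/-- the tangent slope at the point with parameter `t`. -/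
theorem s58m_tangent_slope {t : k} (ht0 : t ≠ 0) (ht1 : t ≠ 1) (htt : t * t ≠ 1) :
    (3 * s58m_px x0 α β t ^ 2 + 2 * W.a₂ * s58m_px x0 α β t + W.a₄ - W.a₁ * s58m_py y0 α β t) /
        (s58m_py y0 α β t - W.negY (s58m_px x0 α β t) (s58m_py y0 α β t)) =
      (α + 2 * α * t - 2 * β * t - β * t ^ 2) / ((1 - t) * (1 + t)) := by
  have h1 : (1 - t) ≠ 0 := sub_ne_zero.2 (Ne.symm ht1)
  have hu : α - β ≠ 0 := sub_ne_zero.2 H.hne
  have h2 : 1 + t ≠ 0 := by
    intro h
    apply htt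
    have : t = -1 := by linear_combination h
    rw [this]
    ring
  rw [s58m_tangent_num H ht1, s58m_py_sub_negY H ht1]
  field_simp

include H in
/-- the tangent: `x`-coordinate. -/
theorem s58m_tangent_x {t : k} (ht0 : t ≠ 0) (ht1 : t ≠ 1) (htt : t * t ≠ 1) :
    W.addX (s58m_px x0 α β t) (s58m_px x0 α β t)
      ((α + 2 * α * t - 2 * β * t - β * t ^ 2) / ((1 - t) * (1 + t))) =
      s58m_px x0 α β (t * t) := by
  have h1 : (1 - t) ≠ 0 := sub_ne_zero.2 (Ne.symm ht1)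
  have h3 : (1 - t * t) ≠ 0 := sub_ne_zero.2 (Ne.symm htt)
  have h2 : 1 + t ≠ 0 := by
    intro h
    apply htt
    have : t = -1 := by linear_combination h
    rw [this]
    ring
  have e : (1 - t * t) = (1 - t) * (1 + t) := by ring
  rw [addX, H.ha1, H.ha2, s58m_px, s58m_px, e]
  field_simp
  ring

include H in
/-- the tangent: `y`-coordinate. -/
theorem s58m_tangent_y {t : k} (ht0 : t ≠ 0) (ht1 : t ≠ 1) (htt : t * t ≠ 1) :
    W.addY (s58m_px x0 α β t) (s58m_px x0 α β t) (s58m_py y0 α β t)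
      ((α + 2 * α * t - 2 * β * t - β * t ^ 2) / ((1 - t) * (1 + t))) =
      s58m_py y0 α β (t * t) := by
  have h1 : (1 - t) ≠ 0 := sub_ne_zero.2 (Ne.symm ht1)
  have h3 : (1 - t * t) ≠ 0 := sub_ne_zero.2 (Ne.symm htt)
  have h2 : 1 + t ≠ 0 := by
    intro h
    apply htt
    have : t = -1 := by linear_combination h
    rw [this]
    ring
  have e : (1 - t * t) = (1 - t) * (1 + t) := by ring
  rw [addY, negAddY, s58m_tangent_x H ht0 ht1 htt, negY, H.ha1, H.ha3]
  rw [s58m_px, s58m_px, s58m_py, s58m_py, e]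
  field_simp
  ring

end Formulas

/-! ### the homomorphism `kˣ → W.Point` -/

section Hom

variable [DecidableEq k] {W : Affine k} {x0 y0 α β : k} (H : s58m_Nodal W x0 y0 α β)

theorem s58m_some_congr {x y x' y' : k} (h : W.Nonsingular x y) (h' : W.Nonsingular x' y')
    (hx : x = x') (hy : y = y') : Point.some x y h = Point.some x' y' h' := by
  subst hx
  subst hy
  rfl

/-- the parametrisation `kˣ → W.Point` of the nonsingular points of a nodal cubic. -/
noncomputable def s58m_phi (t : kˣ) : W.Point :=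
  if h : (t : k) = 1 then 0 else Point.some _ _ (s58m_nonsingular H t.ne_zero h)

theorem s58m_phi_one : s58m_phi H 1 = 0 := dif_pos Units.val_one

theorem s58m_phi_of_ne {t : kˣ} (h : (t : k) ≠ 1) :
    s58m_phi H t = Point.some _ _ (s58m_nonsingular H t.ne_zero h) := dif_neg h

theorem s58m_phi_eq_zero_iff (t : kˣ) : s58m_phi H t = 0 ↔ t = 1 := by
  constructor
  · intro h
    by_contra hne
    have h1 : (t : k) ≠ 1 := fun h1 => hne (Units.ext h1)
    rw [s58m_phi_of_ne H h1] at h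
    exact Point.some_ne_zero _ h
  · rintro rfl
    exact s58m_phi_one H

/-- **the group law in the parameter.** -/
theorem s58m_phi_mul (t s : kˣ) : s58m_phi H (t * s) = s58m_phi H t + s58m_phi H s := by
  by_cases ht : (t : k) = 1
  · have : t = 1 := Units.ext ht
    subst this
    rw [one_mul, s58m_phi_one, zero_add]
  by_cases hs : (s : k) = 1
  · have : s = 1 := Units.ext hs
    subst this
    rw [mul_one, s58m_phi_one, add_zero]
  have ht0 : (t : k) ≠ 0 := t.ne_zero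
  have hs0 : (s : k) ≠ 0 := s.ne_zero
  by_cases hts : (t : k) * s = 1
  · -- inverse points
    have hts' : t * s = 1 := Units.ext (by rw [Units.val_mul, hts, Units.val_one])
    rw [hts', s58m_phi_one, s58m_phi_of_ne H ht, s58m_phi_of_ne H hs]
    have hst : (t : k) = (s : k)⁻¹ := eq_inv_of_mul_eq_one_left hts
    symm
    apply Point.add_of_Y_eq
    · rw [hst, s58m_px_inv hs0 hs]
    · rw [hst, s58m_py_inv H hs0 hs]
  have htsu : ((t * s : kˣ) : k) ≠ 1 := by rw [Units.val_mul]; exact hts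
  rw [s58m_phi_of_ne H htsu, s58m_phi_of_ne H ht, s58m_phi_of_ne H hs]
  by_cases hne : (t : k) = s
  · -- doubling
    have hts2 : t = s := Units.ext hne
    subst hts2
    have hy := s58m_py_ne_negY H (x0 := x0) (y0 := y0) ht0 ht hts
    rw [Point.add_self_of_Y_ne hy]
    apply s58m_some_congr
    · rw [slope_of_Y_ne rfl hy, s58m_tangent_slope H ht0 ht hts, s58m_tangent_x H ht0 ht hts,
        Units.val_mul]
    · rw [slope_of_Y_ne rfl hy, s58m_tangent_slope H ht0 ht hts, s58m_tangent_y H ht0 ht hts,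
        Units.val_mul]
  · -- chord
    have hx := s58m_px_ne_of H (x0 := x0) ht hs hne hts
    rw [Point.add_of_X_ne hx]
    apply s58m_some_congr
    · rw [slope_of_X_ne hx, s58m_chord_x H ht hs hts hne, Units.val_mul]
    · rw [slope_of_X_ne hx, s58m_chord_y H ht hs hts hne, Units.val_mul]

/-- `φ` as a monoid homomorphism into the multiplicative copy of `W.Point`. -/
noncomputable def s58m_phiHom : kˣ →* Multiplicative W.Point where
  toFun t := Multiplicative.ofAdd (s58m_phi H t)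
  map_one' := by rw [s58m_phi_one]; rfl
  map_mul' t s := by rw [s58m_phi_mul]; rfl

theorem s58m_phi_pow (t : kˣ) (n : ℕ) : s58m_phi H (t ^ n) = n • s58m_phi H t := by
  induction n with
  | zero => rw [pow_zero, zero_smul, s58m_phi_one]
  | succ n ih => rw [pow_succ, s58m_phi_mul, ih, succ_nsmul]

include H in
/-- a primitive `N`-th root of unity gives a point of exact order `N`. -/
theorem s58m_phi_exact_order {ζ : k} {N : ℕ} (hζ : IsPrimitiveRoot ζ N) (hN : N ≠ 0) :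
    ∃ P : W.Point, N • P = 0 ∧ ∀ d : ℕ, d ∣ N → d ≠ N → d • P ≠ 0 := by
  have hζ0 : ζ ≠ 0 := hζ.ne_zero hN
  refine ⟨s58m_phi H (Units.mk0 ζ hζ0), ?_, fun d hd hdN h => ?_⟩
  · rw [← s58m_phi_pow, s58m_phi_eq_zero_iff]
    exact Units.ext (by rw [Units.val_pow_eq_pow_val, Units.val_mk0, hζ.pow_eq_one, Units.val_one])
  · rw [← s58m_phi_pow, s58m_phi_eq_zero_iff] at h
    have h1 : ζ ^ d = 1 := by
      have := congrArg Units.val h
      rwa [Units.val_pow_eq_pow_val, Units.val_mk0, Units.val_one] at this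
    have h2 := hζ.dvd_of_pow_eq_one d h1
    exact hdN (Nat.dvd_antisymm hd h2)

end Hom

end Fermat.Agent.S58
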