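/-
Project S58, cell **[FIX-MULT]** (M1) [NODAL], part 3 (helper19).  Prefix `s58m_`.  Mathlib only.

**Every Weierstrass cubic with `Δ = 0`, `c₄ ≠ 0` over an algebraically closed field (ANY
characteristic) is in nodal form** (`s58m_nodal_exists`), hence its group of nonsingular points
contains a point of exact order `N` for every `N` prime to the characteristic
(`s58m_exists_exact_order`, `s58m_exists_prime_pow_order`).

The node: `x0 = (18 b₆ - b₂ b₄) / c₄`, `y0 = -M / (c₄ c₆)` — UNIFORM in the characteristic: the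
numerators of `F_x(x0, y0)`, `F_y(x0, y0)` are multiples of `Δ` over `ℤ` (`s58m_idFx`, `s58m_idFy`);
`F(x0, y0) = 0` then follows from the translation invariance of `c₄`, `c₆`, `Δ`.
-/
import Mathlib
import Fermat.Agent.S58.Mult.NodalGroup

set_option autoImplicit false
set_option linter.unusedSectionVars false
set_option linter.unusedVariables false

namespace Fermat.Agent.S58

open WeierstrassCurve WeierstrassCurve.Affine

section Identities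

variable {R : Type*} [CommRing R] (W : WeierstrassCurve R)

/-- `c₄ · x0`. -/
def s58m_n0 : R := 18 * W.b₆ - W.b₂ * W.b₄

/-- `- c₄ c₆ · y0`. -/
def s58m_M : R :=
  W.a₁ * (3 * s58m_n0 W ^ 2 + 2 * W.a₂ * s58m_n0 W * W.c₄ + W.a₄ * W.c₄ ^ 2) -
    2 * (W.a₂ * W.c₄ + 3 * s58m_n0 W) * (W.a₁ * s58m_n0 W + W.a₃ * W.c₄)

theorem s58m_idB : W.b₂ * W.c₄ + 12 * s58m_n0 W + W.c₆ = 0 := by
  simp only [s58m_n0, WeierstrassCurve.c₄, WeierstrassCurve.c₆, WeierstrassCurve.b₂,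
    WeierstrassCurve.b₄, WeierstrassCurve.b₆]
  ring

set_option maxRecDepth 100000 in
set_option maxHeartbeats 4000000 in
/-- `c₄ c₆ · F_y(x0, y0) = 72 a₁ Δ`. -/
theorem s58m_idFy :
    2 * (-(s58m_M W)) + W.a₁ * s58m_n0 W * W.c₆ + W.a₃ * W.c₄ * W.c₆ = 72 * W.a₁ * W.Δ := by
  simp only [s58m_M, s58m_n0, WeierstrassCurve.Δ, WeierstrassCurve.c₄, WeierstrassCurve.c₆,
    WeierstrassCurve.b₂, WeierstrassCurve.b₄, WeierstrassCurve.b₆, WeierstrassCurve.b₈]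
  ring

set_option maxRecDepth 100000 in
set_option maxHeartbeats 4000000 in
/-- `c₄² c₆ · F_x(x0, y0) ∈ (Δ)`. -/
theorem s58m_idFx :
    W.a₁ * (-(s58m_M W)) * W.c₄ - 3 * s58m_n0 W ^ 2 * W.c₆ -
        2 * W.a₂ * s58m_n0 W * W.c₄ * W.c₆ - W.a₄ * W.c₄ ^ 2 * W.c₆ =
      (-144 * W.a₁ ^ 4 * W.a₂ + 432 * W.a₁ ^ 3 * W.a₃ - 1152 * W.a₁ ^ 2 * W.a₂ ^ 2 +
        864 * W.a₁ ^ 2 * W.a₄ + 5184 * W.a₁ * W.a₂ * W.a₃ - 2304 * W.a₂ ^ 3 +
        10368 * W.a₂ * W.a₄ - 7776 * W.a₃ ^ 2 - 31104 * W.a₆) * W.Δ := by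
  simp only [s58m_M, s58m_n0, WeierstrassCurve.Δ, WeierstrassCurve.c₄, WeierstrassCurve.c₆,
    WeierstrassCurve.b₂, WeierstrassCurve.b₄, WeierstrassCurve.b₆, WeierstrassCurve.b₈]
  ring

/-- translation invariance of `c₄` at a point where `F_x = F_y = 0`. -/
theorem s58m_c4_transl (x y : R)
    (hFx : W.a₁ * y - 3 * x ^ 2 - 2 * W.a₂ * x - W.a₄ = 0)
    (hFy : 2 * y + W.a₁ * x + W.a₃ = 0) :
    W.c₄ = (W.b₂ + 12 * x) ^ 2 := by
  simp only [WeierstrassCurve.c₄, WeierstrassCurve.b₂, WeierstrassCurve.b₄]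
  linear_combination (48 : R) * hFx - 24 * W.a₁ * hFy

/-- translation invariance of `c₆` at a point where `F_x = F_y = 0`. -/
theorem s58m_c6_transl (x y : R)
    (hFx : W.a₁ * y - 3 * x ^ 2 - 2 * W.a₂ * x - W.a₄ = 0)
    (hFy : 2 * y + W.a₁ * x + W.a₃ = 0) :
    W.c₆ = -(W.b₂ + 12 * x) ^ 3 +
      864 * (y ^ 2 + W.a₁ * x * y + W.a₃ * y - x ^ 3 - W.a₂ * x ^ 2 - W.a₄ * x - W.a₆) := by
  have h3 : W.a₃ = -(2 * y + W.a₁ * x) := by linear_combination hFy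
  have h4 : W.a₄ = W.a₁ * y - 3 * x ^ 2 - 2 * W.a₂ * x := by linear_combination -hFx
  simp only [WeierstrassCurve.c₆, WeierstrassCurve.b₂, WeierstrassCurve.b₄, WeierstrassCurve.b₆]
  rw [h3, h4]
  ring

/-- translation invariance of `Δ` at a point where `F_x = F_y = 0`. -/
theorem s58m_disc_transl (x y : R)
    (hFx : W.a₁ * y - 3 * x ^ 2 - 2 * W.a₂ * x - W.a₄ = 0)
    (hFy : 2 * y + W.a₁ * x + W.a₃ = 0) :
    W.Δ = (y ^ 2 + W.a₁ * x * y + W.a₃ * y - x ^ 3 - W.a₂ * x ^ 2 - W.a₄ * x - W.a₆) *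
      ((W.b₂ + 12 * x) ^ 3 -
        432 * (y ^ 2 + W.a₁ * x * y + W.a₃ * y - x ^ 3 - W.a₂ * x ^ 2 - W.a₄ * x - W.a₆)) := by
  have h3 : W.a₃ = -(2 * y + W.a₁ * x) := by linear_combination hFy
  have h4 : W.a₄ = W.a₁ * y - 3 * x ^ 2 - 2 * W.a₂ * x := by linear_combination -hFx
  simp only [WeierstrassCurve.Δ, WeierstrassCurve.b₂, WeierstrassCurve.b₄, WeierstrassCurve.b₆,
    WeierstrassCurve.b₈]
  rw [h3, h4]
  ring

end Identities

/-! ### the node -/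

section Node

variable {k : Type*} [Field k] (W : Affine k)

/-- **the singular point of a Weierstrass cubic with `Δ = 0`, `c₄ ≠ 0`** (any characteristic). -/
theorem s58m_singular_point (hΔ : W.Δ = 0) (hc4 : W.c₄ ≠ 0) :
    ∃ x0 y0 : k, W.a₁ * y0 - 3 * x0 ^ 2 - 2 * W.a₂ * x0 - W.a₄ = 0 ∧
      2 * y0 + W.a₁ * x0 + W.a₃ = 0 ∧
      y0 ^ 2 + W.a₁ * x0 * y0 + W.a₃ * y0 - x0 ^ 3 - W.a₂ * x0 ^ 2 - W.a₄ * x0 - W.a₆ = 0 ∧
      W.b₂ + 12 * x0 ≠ 0 := by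
  have hc6 : W.c₆ ≠ 0 := by
    intro h
    have h1 := W.c_relation
    rw [hΔ, h, mul_zero] at h1
    have h2 : W.c₄ ^ 3 = 0 := by linear_combination -h1
    exact hc4 (pow_eq_zero_iff (by norm_num) |>.1 h2)
  set x0 : k := s58m_n0 W / W.c₄ with hx0
  set y0 : k := -(s58m_M W) / (W.c₄ * W.c₆) with hy0
  have hx0' : x0 * W.c₄ = s58m_n0 W := by rw [hx0]; field_simp
  have hy0' : y0 * (W.c₄ * W.c₆) = -(s58m_M W) := by rw [hy0]; field_simp
  -- `F_y = 0`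
  have hFy : 2 * y0 + W.a₁ * x0 + W.a₃ = 0 := by
    have h1 : (2 * y0 + W.a₁ * x0 + W.a₃) * (W.c₄ * W.c₆) =
        2 * (-(s58m_M W)) + W.a₁ * s58m_n0 W * W.c₆ + W.a₃ * W.c₄ * W.c₆ := by
      rw [← hx0', ← hy0']
      ring
    rw [s58m_idFy, hΔ, mul_zero] at h1
    exact (mul_eq_zero.1 h1).resolve_right (mul_ne_zero hc4 hc6)
  -- `F_x = 0`
  have hFx : W.a₁ * y0 - 3 * x0 ^ 2 - 2 * W.a₂ * x0 - W.a₄ = 0 := by
    have h1 : (W.a₁ * y0 - 3 * x0 ^ 2 - 2 * W.a₂ * x0 - W.a₄) * (W.c₄ ^ 2 * W.c₆) =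
        W.a₁ * (-(s58m_M W)) * W.c₄ - 3 * s58m_n0 W ^ 2 * W.c₆ -
          2 * W.a₂ * s58m_n0 W * W.c₄ * W.c₆ - W.a₄ * W.c₄ ^ 2 * W.c₆ := by
      rw [← hx0', ← hy0']
      ring
    rw [s58m_idFx, hΔ, mul_zero] at h1
    exact (mul_eq_zero.1 h1).resolve_right (mul_ne_zero (pow_ne_zero 2 hc4) hc6)
  -- `B = b₂ + 12 x0 = - c₆ / c₄`
  have hBc : (W.b₂ + 12 * x0) * W.c₄ = -W.c₆ := by
    have := s58m_idB W
    rw [add_mul, mul_assoc, hx0']
    linear_combination this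
  have hB0 : W.b₂ + 12 * x0 ≠ 0 := by
    intro h
    rw [h, zero_mul] at hBc
    exact hc6 (neg_eq_zero.1 hBc.symm)
  refine ⟨x0, y0, hFx, hFy, ?_, hB0⟩
  -- `F = 0`
  set B : k := W.b₂ + 12 * x0 with hB
  set Fv : k :=
    y0 ^ 2 + W.a₁ * x0 * y0 + W.a₃ * y0 - x0 ^ 3 - W.a₂ * x0 ^ 2 - W.a₄ * x0 - W.a₆ with hFv
  have h4 : W.c₄ = B ^ 2 := s58m_c4_transl W x0 y0 hFx hFy
  have h6 : W.c₆ = -B ^ 3 + 864 * Fv := s58m_c6_transl W x0 y0 hFx hFy
  have hD : W.Δ = Fv * (B ^ 3 - 432 * Fv) := s58m_disc_transl W x0 y0 hFx hFy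
  have h864 : 864 * Fv = 0 := by
    rw [h4, h6] at hBc
    linear_combination hBc
  by_contra hF0
  rw [hΔ] at hD
  have hB3 : B ^ 3 = 432 * Fv := by
    have := (mul_eq_zero.1 hD.symm).resolve_left hF0
    linear_combination this
  have h2B : (2 : k) * B ^ 3 = 0 := by rw [hB3]; linear_combination h864
  have h2 : (2 : k) = 0 := (mul_eq_zero.1 h2B).resolve_right (pow_ne_zero 3 hB0)
  have h432 : (432 : k) = 0 := by
    have : (432 : k) = 216 * 2 := by norm_num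
    rw [this, h2, mul_zero]
  rw [h432, zero_mul] at hB3
  exact pow_ne_zero 3 hB0 hB3

/-- **every Weierstrass cubic with `Δ = 0`, `c₄ ≠ 0` over an algebraically closed field is in
nodal form.** -/
theorem s58m_nodal_exists [IsAlgClosed k] (hΔ : W.Δ = 0) (hc4 : W.c₄ ≠ 0) :
    ∃ x0 y0 α β : k, s58m_Nodal W x0 y0 α β := by
  obtain ⟨x0, y0, hFx, hFy, hF, hB⟩ := s58m_singular_point W hΔ hc4
  -- a root of `T² + a₁ T - (a₂ + 3 x0)`
  obtain ⟨α, hα⟩ := IsAlgClosed.exists_root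
    (Polynomial.C (1 : k) * Polynomial.X ^ 2 + Polynomial.C W.a₁ * Polynomial.X +
      Polynomial.C (-(W.a₂ + 3 * x0)))
    (by rw [Polynomial.degree_quadratic one_ne_zero]; norm_num)
  have hα' : α ^ 2 + W.a₁ * α - (W.a₂ + 3 * x0) = 0 := by
    have := hα
    simp only [Polynomial.IsRoot.def, Polynomial.eval_add, Polynomial.eval_mul,
      Polynomial.eval_C, Polynomial.eval_pow, Polynomial.eval_X] at this
    linear_combination this
  refine ⟨x0, y0, α, -W.a₁ - α, ⟨by ring, by linear_combination -hα', by linear_combination hFy,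
    by linear_combination -hFx + 2 * x0 * hα', ?_, ?_⟩⟩
  · linear_combination -hF + y0 * hFy + x0 * hFx - x0 ^ 2 * hα'
  · intro h
    apply hB
    have h1 : W.a₁ = -2 * α := by linear_combination h
    simp only [WeierstrassCurve.b₂]
    linear_combination (-4 : k) * hα' + (W.a₁ + 2 * α) * h1

/-- **a point of exact order `N`** on a nodal Weierstrass cubic over an algebraically closed field,
`N` prime to the characteristic. -/
theorem s58m_exists_exact_order [IsAlgClosed k] [DecidableEq k] (hΔ : W.Δ = 0) (hc4 : W.c₄ ≠ 0)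
    (N : ℕ) (hN : (N : k) ≠ 0) :
    ∃ P : W.Point, N • P = 0 ∧ ∀ d : ℕ, d ∣ N → d ≠ N → d • P ≠ 0 := by
  obtain ⟨x0, y0, α, β, H⟩ := s58m_nodal_exists W hΔ hc4
  have : NeZero (N : k) := ⟨hN⟩
  obtain ⟨ζ, hζ⟩ := HasEnoughRootsOfUnity.exists_primitiveRoot k N
  have hN0 : N ≠ 0 := by
    rintro rfl
    exact hN Nat.cast_zero
  exact s58m_phi_exact_order H hζ hN0

/-- **(M1) [NODAL]**: a point of exact order `lam ^ (n + 1)`. -/
theorem s58m_exists_prime_pow_order [IsAlgClosed k] [DecidableEq k] (hΔ : W.Δ = 0)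
    (hc4 : W.c₄ ≠ 0) (lam : ℕ) (hlam : lam.Prime) (hlk : (lam : k) ≠ 0) (n : ℕ) :
    ∃ P : W.Point, lam ^ (n + 1) • P = 0 ∧ lam ^ n • P ≠ 0 := by
  have hN : ((lam ^ (n + 1) : ℕ) : k) ≠ 0 := by
    rw [Nat.cast_pow]
    exact pow_ne_zero _ hlk
  obtain ⟨P, h1, h2⟩ := s58m_exists_exact_order W hΔ hc4 (lam ^ (n + 1)) hN
  refine ⟨P, h1, h2 (lam ^ n) (pow_dvd_pow lam (Nat.le_succ n)) ?_⟩
  intro h
  have := Nat.pow_right_injective hlam.two_le h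
  omega

end Node

end Fermat.Agent.S58
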