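/-
S58 [FIX-MULT] (helper19), (M3): THE SEAM `s58_FixSeam` (S-FIX).

For a semistable Weierstrass equation `W0` over `ℤ` with `Δ ≠ 0`, an odd prime `lam`, a prime
`q ≠ lam`, a place `A ∣ q` of `ℚ̄` and `n : ℕ` there is a point `P ∈ W0(ℚ̄)` with
`lam ^ (n+1) • P = 0`, `lam ^ n • P ≠ 0`, fixed by the inertia group of `A`.

* `q ∣ Δ` (multiplicative reduction, ANY `q` incl. `2`, `3`): the reduced curve `Wk` over the
  algebraically closed residue field has `Δ = 0`, `c₄ ≠ 0`, hence a point of exact order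
  `lam ^ (n+1)` ([NODAL], `s58m_exists_prime_pow_order`); lift it to a torsion point of `E0`
  (`s58m_exists_torsion_lift` = point lifting + [E1-DIV]); inertia fixes the prime-to-`q` torsion
  of `E0` (`s58m_inertia_fixed`).
* `q ∤ Δ` (good reduction): `E0 = ⊤`, and any point of exact order `lam ^ (n+1)` works
  (`|E[m]| = m²`, S13 ladder).
Prefix `s58m_`.
-/
import Mathlib
import Fermat.Agent.S58.Seams
import Fermat.Agent.S58.Mult.NodeExists
import Fermat.Agent.S58.Mult.Lift
import Fermat.Agent.S58.Mult.Inertia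
import Fermat.Agent.S13.Ladder.Vieta
import Fermat.Agent.S05.IntVal

set_option autoImplicit false

namespace Fermat.Agent.S58

open WeierstrassCurve WeierstrassCurve.Affine WeierstrassCurve.Affine.Point IsLocalRing
  Fermat.Agent.S05 Fermat.Agent.S13

/-! ### the residue field of a valuation ring of an algebraically closed field -/

/-- the residue field of a valuation subring of an algebraically closed field is algebraically
closed -/
theorem s58m_residue_isAlgClosed {F : Type*} [Field F] [IsAlgClosed F] (A : ValuationSubring F) :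
    IsAlgClosed (ResidueField A) := by
  refine IsAlgClosed.of_exists_root _ fun p hp hirr => ?_
  have hsurj : Function.Surjective (residue A) := residue_surjective
  obtain ⟨q0, hq0⟩ := Polynomial.map_surjective (residue A) hsurj p
  have hlift : p ∈ Polynomial.lifts (residue A) := (Polynomial.mem_lifts p).mpr ⟨q0, hq0⟩
  obtain ⟨q, hq, hdeg, hmon⟩ := Polynomial.lifts_and_natDegree_eq_and_monic hlift hp
  have hdegpos : 0 < p.natDegree :=
    Polynomial.natDegree_pos_iff_degree_pos.mpr (Polynomial.degree_pos_of_irreducible hirr)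
  have hq' : (q.map A.subtype).degree ≠ 0 := by
    rw [Polynomial.degree_map_eq_of_injective A.subtype_injective]
    intro h
    rw [Polynomial.degree_eq_natDegree hmon.ne_zero] at h
    have : q.natDegree = 0 := by exact_mod_cast h
    omega
  obtain ⟨α, hα⟩ := IsAlgClosed.exists_root (q.map A.subtype) hq'
  have hint : IsIntegral A α := ⟨q, hmon, by
    rw [Polynomial.IsRoot, Polynomial.eval_map] at hα; exact hα⟩
  obtain ⟨a, ha⟩ := IsIntegrallyClosed.isIntegral_iff.mp hint
  refine ⟨residue A a, ?_⟩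
  rw [← hq, Polynomial.eval_map, Polynomial.eval₂_hom]
  have : Polynomial.eval a q = 0 := by
    apply A.subtype_injective
    rw [_root_.map_zero, ← Polynomial.eval₂_hom, ← Polynomial.eval_map]
    have : A.subtype a = α := ha
    rw [this]; exact hα
  rw [this, _root_.map_zero]

/-! ### a point of exact order `lam ^ (n+1)` in characteristic zero -/

/-- an elliptic curve over an algebraically closed field of characteristic zero has a point of
exact order `lam ^ (n+1)`, `lam` an odd prime -/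
theorem s58m_exists_order_char_zero {K : Type*} [Field K] [DecidableEq K] [IsAlgClosed K]
    [CharZero K] (W : Affine K) (hΔ : W.Δ ≠ 0) {lam : ℕ} (hlam : lam.Prime) (hlam2 : lam ≠ 2)
    (n : ℕ) : ∃ P : W.Point, lam ^ (n + 1) • P = 0 ∧ lam ^ n • P ≠ 0 := by
  by_contra hcon
  push Not at hcon
  have hodd : Odd lam := hlam.odd_of_ne_two hlam2
  have h1 := ld_card_torsion W hΔ (hodd.pow (n := n + 1))
  have h2 := ld_card_torsion W hΔ (hodd.pow (n := n))
  have heq : Nat.card {T : W.Point // lam ^ (n + 1) • T = 0} =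
      Nat.card {T : W.Point // lam ^ n • T = 0} := by
    refine Nat.card_congr (Equiv.subtypeEquivRight fun P => ⟨fun h => hcon P h, fun h => ?_⟩)
    rw [pow_succ, mul_comm, mul_smul, h, smul_zero]
  rw [h1, h2] at heq
  have hlt : lam ^ n < lam ^ (n + 1) := Nat.pow_lt_pow_right hlam.one_lt (Nat.lt_succ_self n)
  have : (lam ^ n) ^ 2 < (lam ^ (n + 1)) ^ 2 := Nat.pow_lt_pow_left hlt (by norm_num)
  omega

/-! ### the model over a valuation ring of `ℚ̄` -/

section model

variable (W0 : WeierstrassCurve ℤ) (A : ValuationSubring s58_Qb)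

/-- the Weierstrass equation over `A` -/
noncomputable def s58m_WA : WeierstrassCurve A := W0.map (Int.castRingHom A)

/-- the reduced equation over the residue field of `A` -/
noncomputable def s58m_Wk : Affine (ResidueField A) := (s58m_WA W0 A).map (residue A)

theorem s58m_model : s58r_Model A ((s58_WQ W0)⁄s58_Qb) (s58m_Wk W0 A) := by
  refine ⟨s58m_WA W0 A, ?_, rfl⟩
  show (W0.map (Int.castRingHom A)).map A.subtype =
    (W0.map (Int.castRingHom ℚ)).map (algebraMap ℚ s58_Qb)
  rw [WeierstrassCurve.map_map, WeierstrassCurve.map_map]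
  congr 1

theorem s58m_curve_Δ : ((s58_WQ W0)⁄s58_Qb).Δ = ((W0.Δ : ℤ) : s58_Qb) := by
  show ((W0.map (Int.castRingHom ℚ)).map (algebraMap ℚ s58_Qb)).Δ = _
  rw [WeierstrassCurve.map_Δ, WeierstrassCurve.map_Δ]
  simp

theorem s58m_Wk_Δ : (s58m_Wk W0 A).Δ = residue A ((W0.Δ : ℤ) : A) := by
  show ((W0.map (Int.castRingHom A)).map (residue A)).Δ = _
  rw [WeierstrassCurve.map_Δ, WeierstrassCurve.map_Δ]
  simp

theorem s58m_Wk_c₄ : (s58m_Wk W0 A).c₄ = residue A ((W0.c₄ : ℤ) : A) := by
  show ((W0.map (Int.castRingHom A)).map (residue A)).c₄ = _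
  rw [WeierstrassCurve.map_c₄, WeierstrassCurve.map_c₄]
  simp

variable {A} {q : ℕ} (hA : A.LiesOverPrime q) (hq : q.Prime)
include hA hq

/-- the residue of an integer vanishes iff `q` divides it -/
theorem s58m_residue_intCast_eq_zero_iff (z : ℤ) : residue A ((z : ℤ) : A) = 0 ↔ (q : ℤ) ∣ z := by
  rw [residue_eq_zero_iff, A.valuation_lt_one_iff, ← intVal_lt_one_iff A hA hq z]
  have : (((z : ℤ) : A) : s58_Qb) = ((z : ℤ) : s58_Qb) := by push_cast; rfl
  rw [this]

end model

/-! ### the seam -/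

/-- **(S-FIX)** -/
theorem s58m_fixSeam : s58_FixSeam := by
  intro W0 hss hΔ0 lam q hlam hlam2 hq hql A hA n
  let _ : DecidableEq (ResidueField A) := Classical.decEq _
  have : IsAlgClosed (ResidueField A) := s58m_residue_isAlgClosed A
  have hM := s58m_model W0 A
  -- `Δ ≠ 0` over `ℚ̄`
  have hΔ : ((s58_WQ W0)⁄s58_Qb).Δ ≠ 0 := by
    rw [s58m_curve_Δ]
    exact_mod_cast hΔ0
  -- `lam ^ (n+1)` is a unit of `A`
  have hqlam : ¬ (q : ℤ) ∣ ((lam ^ (n + 1) : ℕ) : ℤ) := by
    intro h
    have h1 : q ∣ lam ^ (n + 1) := by exact_mod_cast h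
    have h2 : q ∣ lam := hq.dvd_of_dvd_pow h1
    exact hql ((Nat.prime_dvd_prime_iff_eq hq hlam).mp h2)
  have hunit : A.valuation (((lam ^ (n + 1) : ℕ)) : s58_Qb) = 1 := by
    have := (intVal_eq_one_iff A hA hq ((lam ^ (n + 1) : ℕ) : ℤ)).mpr hqlam
    rwa [Int.cast_natCast] at this
  -- it suffices to find a torsion point of exact order in `E0`
  suffices h : ∃ P : s58r_E0 hM, lam ^ (n + 1) • (P : s58_E W0) = 0 ∧
      lam ^ n • (P : s58_E W0) ≠ 0 by
    obtain ⟨P, h1, h2⟩ := h
    exact ⟨P, h1, h2, fun σ hσ => s58m_inertia_fixed hM hσ hunit P h1⟩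
  by_cases hbad : (q : ℤ) ∣ W0.Δ
  · -- multiplicative reduction
    have hc4 : ¬ (q : ℤ) ∣ W0.c₄ := hss q hq hbad
    have hΔk : (s58m_Wk W0 A).Δ = 0 := by
      rw [s58m_Wk_Δ]
      exact (s58m_residue_intCast_eq_zero_iff hA hq _).mpr hbad
    have hc4k : (s58m_Wk W0 A).c₄ ≠ 0 := by
      rw [s58m_Wk_c₄]
      exact fun h => hc4 ((s58m_residue_intCast_eq_zero_iff hA hq _).mp h)
    have hlk : ((lam : ℕ) : ResidueField A) ≠ 0 := by
      intro h
      have h1 : residue A (((lam : ℕ) : ℤ) : A) = 0 := by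
        rw [Int.cast_natCast, map_natCast]; exact h
      have h2 : (q : ℤ) ∣ ((lam : ℕ) : ℤ) := (s58m_residue_intCast_eq_zero_iff hA hq _).mp h1
      have h3 : q ∣ lam := by exact_mod_cast h2
      exact hql ((Nat.prime_dvd_prime_iff_eq hq hlam).mp h3)
    obtain ⟨Q, hQ1, hQ2⟩ := s58m_exists_prime_pow_order (s58m_Wk W0 A) hΔk hc4k lam hlam hlk n
    obtain ⟨P, hP1, hP2⟩ := s58m_exists_torsion_lift hM hΔ hunit hQ1
    refine ⟨P, hP1, fun h0 => hQ2 ?_⟩
    have h1 : lam ^ n • P = 0 := Subtype.ext (by rw [AddSubgroup.coe_nsmul]; exact h0)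
    rw [← hP2, ← map_nsmul, h1, _root_.map_zero]
  · -- good reduction
    have hΔk : (s58m_Wk W0 A).Δ ≠ 0 := by
      rw [s58m_Wk_Δ]
      exact fun h => hbad ((s58m_residue_intCast_eq_zero_iff hA hq _).mp h)
    obtain ⟨P, hP1, hP2⟩ := s58m_exists_order_char_zero ((s58_WQ W0)⁄s58_Qb) hΔ hlam hlam2 n
    exact ⟨⟨P, s58r_mem_E0_of_good hM hΔk P⟩, hP1, hP2⟩

end Fermat.Agent.S58
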