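/-
S58 toolkit (helper19): BRIDGE between the prelude's `WeierstrassCurve.InZeroComponentAt`
(used by S15 / S12, Mazur block) and the subgroup `E0` of [RED-HOM]:

  `W.InZeroComponentAt A P ↔ P ∈ s58r_E0 (s58m_model W A)`.

Consequences (all residue characteristics, any reduction type): the points in the zero component
form a SUBGROUP (`s58m_inZeroComponentAt_add/_neg/_nsmul`), the reduction map is defined on it, and
the inertia group of `A` fixes its torsion of order prime to the residue characteristic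
(`s58m_inertia_fixed`).  Prefix `s58m_`.
-/
import Mathlib
import Fermat.Prelude.Def_EllipticCurve_ZeroComponentAt
import Fermat.Agent.S58.Mult.Fix

set_option autoImplicit false

namespace Fermat.Agent.S58

open WeierstrassCurve WeierstrassCurve.Affine WeierstrassCurve.Affine.Point IsLocalRing

variable (W : WeierstrassCurve ℤ) (A : ValuationSubring s58_Qb)

/-- the two spellings of the reduced curve agree -/
theorem s58m_Wk_eq : s58m_Wk W A = W.map (Int.castRingHom (ResidueField A)) := by
  show (W.map (Int.castRingHom A)).map (residue A) = _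
  rw [WeierstrassCurve.map_map]
  congr 1

variable {W A} [DecidableEq (ResidueField A)]

/-- **the prelude's zero component is the subgroup `E0` of [RED-HOM]** -/
theorem s58m_inZeroComponentAt_iff (P : s58_E W) :
    W.InZeroComponentAt A P ↔ P ∈ s58r_E0 (s58m_model W A) := by
  constructor
  · rintro (rfl | ⟨x, y, h, rfl, hx | ⟨hx, hy, hns⟩⟩)
    · exact (s58r_E0 _).zero_mem
    · exact ⟨0, s58r_RedTo.inf h hx⟩
    · have hns' : (s58m_Wk W A).Nonsingular (residue A ⟨x, hx⟩) (residue A ⟨y, hy⟩) := by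
        rw [s58m_Wk_eq]; exact hns
      exact ⟨_, s58r_RedTo.aff ⟨x, hx⟩ ⟨y, hy⟩ h hns'⟩
  · rintro ⟨R, hR⟩
    cases hR with
    | zero => exact Or.inl rfl
    | inf h hx => exact Or.inr ⟨_, _, h, rfl, Or.inl hx⟩
    | aff a b h h' =>
      refine Or.inr ⟨a, b, h, rfl, Or.inr ⟨a.2, b.2, ?_⟩⟩
      rw [← s58m_Wk_eq]
      exact h'

theorem s58m_inZeroComponentAt_add {P Q : s58_E W} (hP : W.InZeroComponentAt A P)
    (hQ : W.InZeroComponentAt A Q) : W.InZeroComponentAt A (P + Q) := by
  rw [s58m_inZeroComponentAt_iff] at hP hQ ⊢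
  exact (s58r_E0 _).add_mem hP hQ

theorem s58m_inZeroComponentAt_neg {P : s58_E W} (hP : W.InZeroComponentAt A P) :
    W.InZeroComponentAt A (-P) := by
  rw [s58m_inZeroComponentAt_iff] at hP ⊢
  exact (s58r_E0 _).neg_mem hP

theorem s58m_inZeroComponentAt_sub {P Q : s58_E W} (hP : W.InZeroComponentAt A P)
    (hQ : W.InZeroComponentAt A Q) : W.InZeroComponentAt A (P - Q) := by
  rw [s58m_inZeroComponentAt_iff] at hP hQ ⊢
  exact (s58r_E0 _).sub_mem hP hQ

theorem s58m_inZeroComponentAt_nsmul {P : s58_E W} (hP : W.InZeroComponentAt A P) (n : ℕ) :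
    W.InZeroComponentAt A (n • P) := by
  rw [s58m_inZeroComponentAt_iff] at hP ⊢
  exact (s58r_E0 _).nsmul_mem hP n

theorem s58m_inZeroComponentAt_zsmul {P : s58_E W} (hP : W.InZeroComponentAt A P) (n : ℤ) :
    W.InZeroComponentAt A (n • P) := by
  rw [s58m_inZeroComponentAt_iff] at hP ⊢
  exact (s58r_E0 _).zsmul_mem hP n

/-- good reduction: every point is in the zero component -/
theorem s58m_inZeroComponentAt_of_good {q : ℕ} (hA : A.LiesOverPrime q) (hq : q.Prime)
    (hgood : ¬ (q : ℤ) ∣ W.Δ) (P : s58_E W) : W.InZeroComponentAt A P := by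
  rw [s58m_inZeroComponentAt_iff]
  refine s58r_mem_E0_of_good _ ?_ P
  rw [s58m_Wk_Δ]
  exact fun h => hgood ((s58m_residue_intCast_eq_zero_iff hA hq _).mp h)

/-- the inertia group of `A` preserves the zero component -/
theorem s58m_inZeroComponentAt_smul {σ : s58_G} (hσ : σ ∈ A.inertiaSubgroupIn ℚ) {P : s58_E W}
    (hP : W.InZeroComponentAt A P) : W.InZeroComponentAt A (σ • P) := by
  rw [s58m_inZeroComponentAt_iff] at hP ⊢
  exact s58m_smul_mem_E0 (s58m_model W A) hσ ⟨P, hP⟩

/-- **inertia fixes the torsion of the zero component of order prime to the residue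
characteristic** -/
theorem s58m_inZeroComponentAt_inertia_fixed {q : ℕ} (hA : A.LiesOverPrime q) (hq : q.Prime)
    {σ : s58_G} (hσ : σ ∈ A.inertiaSubgroupIn ℚ) {n : ℕ} (hn : ¬ q ∣ n) {P : s58_E W}
    (hP : W.InZeroComponentAt A P) (hnP : n • P = 0) : σ • P = P := by
  rw [s58m_inZeroComponentAt_iff] at hP
  have hunit : A.valuation ((n : ℕ) : s58_Qb) = 1 := by
    have := (Fermat.Agent.S05.intVal_eq_one_iff A hA hq ((n : ℕ) : ℤ)).mpr
      (fun h => hn (by exact_mod_cast h))
    rwa [Int.cast_natCast] at this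
  exact s58m_inertia_fixed (s58m_model W A) hσ hunit ⟨P, hP⟩ hnP

end Fermat.Agent.S58
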