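/-
S58 [FIX-MULT] (helper19): INERTIA AND THE REDUCTION MAP.

`W'` a Weierstrass curve over `R₀`, `K` a field, `S` a subfield (`K/S`, Galois action of
`K ≃ₐ[S] K` on `(W'⁄K).Point`, Mathlib's instance), `A : ValuationSubring K`,
`hM : s58r_Model A (W'⁄K) Wk`, `σ ∈ A.inertiaSubgroupIn S`:
* `s58m_redTo_smul`: if `P` reduces to `R` then `σ • P` reduces to `R`;
* `s58m_smul_mem_E0`, `s58m_red_smul`: `σ` preserves `E0` and commutes with the reduction map;
* `s58m_inertia_fixed`: `σ` FIXES every `n`-torsion point of `E0`, `n` a unit of `A`.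
Prefix `s58m_`.
-/
import Mathlib
import Fermat.Agent.S58.Red.Hom
import Fermat.Agent.S05.GaloisAction

set_option autoImplicit false

namespace Fermat.Agent.S58

open WeierstrassCurve WeierstrassCurve.Affine WeierstrassCurve.Affine.Point IsLocalRing
  Fermat.Agent.S05

variable {R₀ S K : Type*} [CommRing R₀] [Field S] [Field K] [DecidableEq K] [Algebra R₀ S]
  [Algebra R₀ K] [Algebra S K] [IsScalarTower R₀ S K] {W' : Affine R₀} {A : ValuationSubring K}
  [DecidableEq (ResidueField A)] {Wk : Affine (ResidueField A)}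

omit [DecidableEq K] [DecidableEq (ResidueField A)] in
/-- inertia acts trivially on residues -/
theorem s58m_residue_inertia {σ : K ≃ₐ[S] K} (hσ : σ ∈ A.inertiaSubgroupIn S) (a : A) :
    residue A ⟨σ (a : K), inertia_apply_mem A hσ a.2⟩ = residue A a := by
  rw [← sub_eq_zero, ← map_sub, residue_eq_zero_iff]
  exact (A.valuation_lt_one_iff _).mpr (inertia_sub_lt_one A hσ a.2)

omit [DecidableEq (ResidueField A)] in
/-- if `P` reduces to `R`, so does `σ • P`, for `σ` in the inertia group -/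
theorem s58m_redTo_smul {σ : K ≃ₐ[S] K} (hσ : σ ∈ A.inertiaSubgroupIn S)
    {P : (W'⁄K).Point} {R : Wk.Point} (h : s58r_RedTo A P R) : s58r_RedTo A (σ • P) R := by
  cases h with
  | zero =>
    rw [ga_smul_zero]
    exact s58r_RedTo.zero
  | inf h₁ hx₁ =>
    rw [S05.smul_some σ h₁]
    exact s58r_RedTo.inf _ (fun hmem => hx₁ ((inertia_apply_mem_iff A hσ _).mp hmem))
  | aff a b h₁ h₁' =>
    rw [S05.smul_some σ h₁]
    have hra := s58m_residue_inertia hσ a
    have hrb := s58m_residue_inertia hσ b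
    have h'' : Wk.Nonsingular (residue A ⟨σ (a : K), inertia_apply_mem A hσ a.2⟩)
        (residue A ⟨σ (b : K), inertia_apply_mem A hσ b.2⟩) := by
      rw [hra, hrb]; exact h₁'
    rw [← s58r_some_congr hra hrb h'' h₁']
    exact s58r_RedTo.aff ⟨σ (a : K), inertia_apply_mem A hσ a.2⟩
      ⟨σ (b : K), inertia_apply_mem A hσ b.2⟩ _ h''

/-- inertia preserves `E0` -/
theorem s58m_smul_mem_E0 (hM : s58r_Model A (W'⁄K) Wk) {σ : K ≃ₐ[S] K}
    (hσ : σ ∈ A.inertiaSubgroupIn S) (P : s58r_E0 hM) :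
    σ • (P : (W'⁄K).Point) ∈ s58r_E0 hM :=
  ⟨_, s58m_redTo_smul hσ (s58r_red_spec hM P)⟩

/-- inertia commutes with the reduction map -/
theorem s58m_red_smul (hM : s58r_Model A (W'⁄K) Wk) {σ : K ≃ₐ[S] K}
    (hσ : σ ∈ A.inertiaSubgroupIn S) (P : s58r_E0 hM) :
    s58r_red hM ⟨_, s58m_smul_mem_E0 hM hσ P⟩ = s58r_red hM P :=
  s58r_red_eq hM _ (s58m_redTo_smul hσ (s58r_red_spec hM P))

/-- **inertia fixes the `n`-torsion of `E0`**, `n` a unit of `A` -/
theorem s58m_inertia_fixed (hM : s58r_Model A (W'⁄K) Wk) {σ : K ≃ₐ[S] K}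
    (hσ : σ ∈ A.inertiaSubgroupIn S) {n : ℕ} (hn : A.valuation (n : K) = 1)
    (P : s58r_E0 hM) (hP : n • (P : (W'⁄K).Point) = 0) :
    σ • (P : (W'⁄K).Point) = P := by
  set D : s58r_E0 hM := ⟨_, s58m_smul_mem_E0 hM hσ P⟩ - P with hD
  have hD0 : s58r_red hM D = 0 := by
    rw [hD, map_sub, s58m_red_smul hM hσ P, sub_self]
  have hnD : n • (D : (W'⁄K).Point) = 0 := by
    rw [hD, AddSubgroup.coe_sub]
    exact ga_nsmul_smul_sub σ hP
  have := s58r_red_injective_on_torsion hM hn hnD hD0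
  have h2 : (D : (W'⁄K).Point) = 0 := by rw [this]; rfl
  rw [hD, AddSubgroup.coe_sub] at h2
  exact sub_eq_zero.mp h2

end Fermat.Agent.S58
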